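import Fermat.Agent.Mazur.Small.TateInvariants
import Fermat.Prelude.Def_FLTPrelim_GaloisRep

/-!
# A Galois stable line in `E[3]` gives a rational point on `X₀(3)`
-/

set_option autoImplicit false

namespace Fermat.Agent.Mazur.Fifteen

open WeierstrassCurve WeierstrassCurve.Affine

variable {F : Type*} [Field F]

/-- The invariant `u = a₁³ / a₃` of a curve in the normal form `y² + a₁ x y + a₃ y = x³`. -/
noncomputable def threeInvariant (V : WeierstrassCurve.Affine F) (x y : F) : F :=
  Small.tateA1 V x y ^ 3 / Small.tateA3 V x y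

lemma threeInvariant_negY (V : WeierstrassCurve.Affine F) (x y : F)
    (h3 : Small.tateA3 V x y ≠ 0) : threeInvariant V x (V.negY x y) = threeInvariant V x y := by
  rw [threeInvariant, threeInvariant, Small.tateA1_negY V x y h3, Small.tateA3_negY,
    Odd.neg_pow (by decide), neg_div_neg_eq]

lemma threeInvariant_identity (V : WeierstrassCurve.Affine F) (x y : F) (h : V.Equation x y)
    (h3 : Small.tateA3 V x y ≠ 0) (h2 : Small.tateA2 V x y = 0) :
    V.c₄ ^ 3 * (threeInvariant V x y - 27)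
      = V.Δ * threeInvariant V x y * (threeInvariant V x y - 24) ^ 3 := by
  rw [threeInvariant, Small.c4_eq V x y h3, Small.delta_eq V x y h3 h, h2]
  field_simp
  ring

variable [DecidableEq F]

/-- What `3 • P = 0` says in coordinates. -/
lemma three_torsion_coords (V : WeierstrassCurve.Affine F) {x y : F} (h : V.Nonsingular x y)
    (h3 : (3 : ℕ) • (Point.some x y h : V.Point) = 0) :
    Small.tateA3 V x y ≠ 0 ∧ Small.tateA2 V x y = 0 := by
  have hA := Small.tateA3_ne_zero_of_prime Nat.prime_three (by decide) h h3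
  obtain ⟨h2, hd⟩ := Small.exists_double h hA
  have he : Point.some _ _ h2 = -Point.some x y h := by
    rw [eq_neg_iff_add_eq_zero, ← hd, ← succ_nsmul]; exact h3
  rw [Point.neg_some] at he
  exact ⟨hA, sub_eq_self.1 (Point.some.inj he).1⟩

variable {K : Type*} [Field K] [Algebra ℚ K] [IsGalois ℚ K] [DecidableEq K]

omit [IsGalois ℚ K] in
lemma smul_some (W : WeierstrassCurve ℚ) (σ : K ≃ₐ[ℚ] K) {x y : K}
    (h : (W⁄K).toAffine.Nonsingular x y) :
    ∃ h' : (W⁄K).toAffine.Nonsingular (σ x) (σ y),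
      σ • (Point.some x y h : (W⁄K).toAffine.Point) = Point.some (σ x) (σ y) h' :=
  ⟨_, rfl⟩

/-- A Galois stable subgroup of order `3` gives a rational point on `X₀(3)`. -/
theorem exists_hauptmodul_three (W : WeierstrassCurve ℚ) (hΔ : W.Δ ≠ 0)
    (P : (W⁄K).Point) (hP : P ≠ 0) (h3 : (3 : ℕ) • P = 0)
    (hstab : ∀ σ : K ≃ₐ[ℚ] K, σ • P = P ∨ σ • P = -P) :
    ∃ T : ℚ, T ≠ 0 ∧ W.c₄ ^ 3 * T = W.Δ * ((T + 27) * (T + 3) ^ 3) := by
  obtain _ | ⟨x, y, h⟩ := P
  · exact absurd rfl hP
  let V : WeierstrassCurve.Affine K := W⁄K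
  obtain ⟨hψ, hl⟩ := three_torsion_coords V h h3
  have hfix : ∀ σ : K ≃ₐ[ℚ] K, σ (threeInvariant V x y) = threeInvariant V x y := by
    intro σ
    have e1 : σ (threeInvariant V x y) = threeInvariant V (σ x) (σ y) := by
      simp [threeInvariant, Small.tateA1, Small.tateA3, Small.tateLam, V, map_div₀, map_ofNat]
    rw [e1]
    obtain ⟨h', e2⟩ := smul_some W σ h
    rcases hstab σ with hσ | hσ
    · rw [e2] at hσ
      obtain ⟨hx, hy⟩ := Point.some.inj hσ
      rw [hx, hy]
    · rw [e2, Point.neg_some] at hσ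
      obtain ⟨hx, hy⟩ := Point.some.inj hσ
      rw [hx, hy]
      exact threeInvariant_negY V x y hψ
  obtain ⟨u, hu⟩ := (InfiniteGalois.mem_range_algebraMap_iff_fixed (k := ℚ) _).2 hfix
  have hid := threeInvariant_identity V x y h.left hψ hl
  have hid' : algebraMap ℚ K (W.c₄ ^ 3 * (u - 27))
      = algebraMap ℚ K (W.Δ * u * (u - 24) ^ 3) := by
    simp only [map_mul, map_pow, map_sub, map_ofNat, hu]
    rw [← WeierstrassCurve.map_c₄, ← WeierstrassCurve.map_Δ]
    exact hid
  have hid'' := (algebraMap ℚ K).injective hid'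
  refine ⟨u - 27, ?_, by linear_combination hid''⟩
  intro h0
  have : u = 27 := by linarith
  subst this
  norm_num at hid''
  exact hΔ hid''

end Fermat.Agent.Mazur.Fifteen
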